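import Fermat.Agent.S55.KC.Spec

/-!
# S55 / layer KC, block D (helper357): dictionary level-constant ↔ finite level

General lemmas, `KC-D1` (`h1VanishOfAt : H1VanishOfAtSpec`) and `KC-D3`
(`h3VanishOfAt : H3VanishOfAtSpec`).
-/

set_option autoImplicit false
set_option linter.style.haveILetI false

noncomputable section

namespace Fermat.Agent.S55.KC.H357

open groupCohomology Fermat.Agent.S55.PT Fermat.Agent.S55.KC

variable {G : Type} [Group G]

/-! ### Levels -/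

/-- Below two levels there is a normal level. -/
theorem exists_normal_le {L : LevelSys G} (hN : L.NormalCofinal) {U₁ U₂ : Subgroup G}
    (h₁ : U₁ ∈ L.levels) (h₂ : U₂ ∈ L.levels) :
    ∃ V ∈ L.levels, V.Normal ∧ V ≤ U₁ ∧ V ≤ U₂ := by
  obtain ⟨W, hW, hle⟩ := L.directed U₁ h₁ U₂ h₂
  obtain ⟨V, hV, hVW, hVn⟩ := hN W hW
  exact ⟨V, hV, hVn, hVW.trans (hle.trans inf_le_left), hVW.trans (hle.trans inf_le_right)⟩

/-- A level fixing finitely many vectors of a smooth representation. -/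
theorem exists_level_fixing {L : LevelSys G} {k : Type} [CommRing k] {B : Rep.{0, 0, 0} k G}
    (hS : L.IsSmooth B) {F : Set B} (hF : F.Finite) :
    ∃ W ∈ L.levels, ∀ b ∈ F, ∀ s ∈ W, B.ρ s b = b := by
  induction F, hF using Set.Finite.induction_on with
  | empty =>
    obtain ⟨U, hU⟩ := L.nonempty
    exact ⟨U, hU, fun b hb => absurd hb (Set.notMem_empty b)⟩
  | insert _ _ ih =>
    rename_i a F _ _
    obtain ⟨W, hW, hWF⟩ := ih
    obtain ⟨U, hU, hUa⟩ := hS a
    obtain ⟨W', hW', hle⟩ := L.directed W hW U hU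
    refine ⟨W', hW', fun b hb s hs => ?_⟩
    rcases Set.mem_insert_iff.mp hb with rfl | hb
    · exact hUa s (hle hs).2
    · exact hWF b hb s (hle hs).1

/-- A function on `G` which is right invariant under a subgroup of finite index has finitely
many values. -/
theorem finite_range_of_right_invariant {X : Type*} (U : Subgroup G) [U.FiniteIndex]
    (x : G → X) (hx : ∀ g s : G, s ∈ U → x (g * s) = x g) : (Set.range x).Finite := by
  haveI : Finite (G ⧸ U) := Subgroup.finite_quotient_of_finiteIndex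
  refine (Set.finite_range fun q : G ⧸ U => x q.out).subset ?_
  rintro _ ⟨g, rfl⟩
  obtain ⟨s, hs⟩ := QuotientGroup.mk_out_eq_mul U g
  refine ⟨(g : G ⧸ U), ?_⟩
  simp only
  rw [hs, hx g s s.2]

/-! ### Cochains at a finite level -/

variable {k : Type} [CommRing k] {B : Rep.{0, 0, 0} k G}

theorem isAt₁_mono {V' V : Subgroup G} (h : V' ≤ V) {x : G → B} (hx : IsAt₁ V B x) :
    IsAt₁ V' B x := fun g s hs => hx g s (h hs)

theorem isAt₂_mono {V' V : Subgroup G} (h : V' ≤ V) {f : G × G → B} (hf : IsAt₂ V B f) :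
    IsAt₂ V' B f := fun g g' s t hs ht => hf g g' s t (h hs) (h ht)

theorem isLC₁_of_isAt₁ {L : LevelSys G} {V : Subgroup G} (hV : V ∈ L.levels) {x : G → B}
    (hx : IsAt₁ V B x) : L.IsLC₁ x := ⟨V, hV, fun g s hs => (hx g s hs).1⟩

theorem isLC₂_of_isAt₂ {L : LevelSys G} {V : Subgroup G} (hV : V ∈ L.levels) {f : G × G → B}
    (hf : IsAt₂ V B f) : L.IsLC₂ f := ⟨V, hV, fun g g' s t hs ht => (hf g g' s t hs ht).1⟩

/-- A 1-cocycle which is right invariant under a normal subgroup `V` is inflated from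
`(G ⧸ V, B^V)`. -/
theorem isAt₁_of_cocycle {V : Subgroup G} [V.Normal] {f : G → B} (hf : f ∈ cocycles₁ B)
    (hinv : ∀ g s : G, s ∈ V → f (g * s) = f g) : IsAt₁ V B f := by
  intro g s hs
  refine ⟨hinv g s hs, ?_⟩
  have h1 : f 1 = 0 := cocycles₁_map_one ⟨f, hf⟩
  have hs0 : f s = 0 := by
    have := hinv 1 s hs
    rwa [one_mul, h1] at this
  have h2 : f (s * g) = f g := by
    have hconj : g⁻¹ * s * g ∈ V := by
      have := Subgroup.Normal.conj_mem (inferInstance : V.Normal) s hs g⁻¹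
      simpa using this
    have := hinv g (g⁻¹ * s * g) hconj
    rwa [show g * (g⁻¹ * s * g) = s * g by group] at this
  have h3 := (mem_cocycles₁_iff f).mp hf s g
  rw [h2, hs0, add_zero] at h3
  exact h3.symm

/-- A 2-cocycle which is right invariant under a normal subgroup `V` is inflated from
`(G ⧸ V, B^V)`. -/
theorem isAt₂_of_cocycle {V : Subgroup G} [V.Normal] {f : G × G → B} (hf : f ∈ cocycles₂ B)
    (hinv : ∀ g h s t : G, s ∈ V → t ∈ V → f (g * s, h * t) = f (g, h)) : IsAt₂ V B f := by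
  intro g h s t hs ht
  refine ⟨hinv g h s t hs ht, ?_⟩
  have h1 : ∀ x : G, f (1, x) = f (1, 1) := cocycles₂_map_one_fst ⟨f, hf⟩
  have hs1 : ∀ x : G, f (s, x) = f (1, 1) := by
    intro x
    have := hinv 1 x s 1 hs V.one_mem
    rw [one_mul, mul_one] at this
    rw [this, h1]
  have h2 : f (s * g, h) = f (g, h) := by
    have hconj : g⁻¹ * s * g ∈ V := by
      have := Subgroup.Normal.conj_mem (inferInstance : V.Normal) s hs g⁻¹
      simpa using this
    have := hinv g h (g⁻¹ * s * g) 1 hconj V.one_mem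
    rwa [show g * (g⁻¹ * s * g) = s * g by group, mul_one] at this
  have h3 := (mem_cocycles₂_iff f).mp hf s g h
  rw [h2, hs1, hs1] at h3
  exact (add_right_cancel h3).symm

/-- A level-constant 1-cochain with values in a smooth representation is inflated from some
normal level, which can be chosen below any given level. -/
theorem exists_isAt₁ {L : LevelSys G} (hN : L.NormalCofinal) (hF : L.FiniteIndex)
    (hS : L.IsSmooth B) {x : G → B} (hx : L.IsLC₁ x) {V₀ : Subgroup G} (hV₀ : V₀ ∈ L.levels) :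
    ∃ V ∈ L.levels, V.Normal ∧ V ≤ V₀ ∧ IsAt₁ V B x := by
  obtain ⟨U, hU, hxU⟩ := hx
  haveI := hF U hU
  obtain ⟨W, hW, hWfix⟩ := exists_level_fixing hS (finite_range_of_right_invariant U x hxU)
  obtain ⟨V₁, hV₁, _, hV₁U, hV₁W⟩ := exists_normal_le hN hU hW
  obtain ⟨V, hV, hVn, hVV₁, hVV₀⟩ := exists_normal_le hN hV₁ hV₀
  refine ⟨V, hV, hVn, hVV₀, fun g s hs => ⟨hxU g s (hV₁U (hVV₁ hs)), ?_⟩⟩
  exact hWfix (x g) ⟨g, rfl⟩ s (hV₁W (hVV₁ hs))

/-- A level-constant 2-cocycle is inflated from some normal level, which can be chosen below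
any given level. -/
theorem exists_isAt₂_of_cocycle {L : LevelSys G} (hN : L.NormalCofinal) {f : G × G → B}
    (hf : f ∈ L.Z2 B) {V₀ : Subgroup G} (hV₀ : V₀ ∈ L.levels) :
    ∃ V ∈ L.levels, V.Normal ∧ V ≤ V₀ ∧ IsAt₂ V B f := by
  obtain ⟨hcoc, U, hU, hfU⟩ := hf
  obtain ⟨V, hV, hVn, hVU, hVV₀⟩ := exists_normal_le hN hU hV₀
  haveI := hVn
  exact ⟨V, hV, hVn, hVV₀, isAt₂_of_cocycle hcoc fun g h s t hs ht =>
    hfU g h s t (hVU hs) (hVU ht)⟩

/-- A level-constant 3-cochain with values in a smooth representation is inflated from some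
normal level, which can be chosen below any given level. -/
theorem exists_isAt₃ {L : LevelSys G} (hN : L.NormalCofinal) (hF : L.FiniteIndex)
    (hS : L.IsSmooth B) {z : G × G × G → B} (hz : IsLC₃ L z) {V₀ : Subgroup G}
    (hV₀ : V₀ ∈ L.levels) :
    ∃ V ∈ L.levels, V.Normal ∧ V ≤ V₀ ∧ IsAt₃ V B z := by
  obtain ⟨U, hU, hzU⟩ := hz
  haveI := hF U hU
  haveI : Finite (G ⧸ U) := Subgroup.finite_quotient_of_finiteIndex
  have hfin : (Set.range z).Finite := by
    refine (Set.finite_range fun q : (G ⧸ U) × (G ⧸ U) × (G ⧸ U) =>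
      z (q.1.out, q.2.1.out, q.2.2.out)).subset ?_
    rintro _ ⟨⟨g, h, i⟩, rfl⟩
    obtain ⟨s, hs⟩ := QuotientGroup.mk_out_eq_mul U g
    obtain ⟨t, ht⟩ := QuotientGroup.mk_out_eq_mul U h
    obtain ⟨u, hu⟩ := QuotientGroup.mk_out_eq_mul U i
    refine ⟨((g : G ⧸ U), (h : G ⧸ U), (i : G ⧸ U)), ?_⟩
    simp only
    rw [hs, ht, hu, hzU g h i s t u s.2 t.2 u.2]
  obtain ⟨W, hW, hWfix⟩ := exists_level_fixing hS hfin
  obtain ⟨V₁, hV₁, _, hV₁U, hV₁W⟩ := exists_normal_le hN hU hW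
  obtain ⟨V, hV, hVn, hVV₁, hVV₀⟩ := exists_normal_le hN hV₁ hV₀
  refine ⟨V, hV, hVn, hVV₀, fun g h i s t u hs ht hu =>
    ⟨hzU g h i s t u (hV₁U (hVV₁ hs)) (hV₁U (hVV₁ ht)) (hV₁U (hVV₁ hu)), ?_⟩⟩
  exact hWfix (z (g, h, i)) ⟨(g, h, i), rfl⟩ s (hV₁W (hVV₁ hs))

/-! ### KC-D1 and KC-D3 -/

/-- **KC-D1.** -/
theorem h1VanishOfAt : H1VanishOfAtSpec := by
  intro G _ L B V₀ hN hV₀ hAt f hf hLC
  obtain ⟨U, hU, hfU⟩ := hLC
  obtain ⟨V, hV, hVn, hVU, hVV₀⟩ := exists_normal_le hN hU hV₀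
  haveI := hVn
  obtain ⟨a, -, ha⟩ := hAt V hV hVn hVV₀ f hf
    (isAt₁_of_cocycle hf fun g s hs => hfU g s (hVU hs))
  exact ⟨a, ha⟩

/-- **KC-D3.** -/
theorem h3VanishOfAt : H3VanishOfAtSpec := by
  intro G _ L B V₀ hN hF hS hV₀ hAt z hz hcoc
  obtain ⟨V, hV, hVn, hVV₀, hzV⟩ := exists_isAt₃ hN hF hS hz hV₀
  obtain ⟨b, hb, hbz⟩ := hAt V hV hVn hVV₀ z hzV hcoc
  exact ⟨b, isLC₂_of_isAt₂ hV hb, hbz⟩

end Fermat.Agent.S55.KC.H357
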